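import Fermat.Agent.LT.A2.H798.CpxSpec

/-!
# Row LT, tower A2, leaf A2.03.1.1.10.07 `CX798.RightInvC` (helper955)

OFF-MAIN.  `rightInvC955 : CX798.RightInvC` VERBATIM against
`LT/A2/H798/CpxSpec.lean` (helper798@5f07fac26, sha256 `8ca2dc507058b836`).

Proof: for `k k* = 1` the hermitian products of the rows of `g k` are those of the rows of `g`
(`herm_unitary955`), so `rowN (g k) = rowN g`, `rowB (g k) = rowB g`; for `κ = torMat t n a b`
the row `[1, ω]` (`ω` a root of `X² - tX + n`) is a left eigenvector with eigenvalue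
`lam ω κ = a + b ω`, so `lam ω (m κ) = lam ω m * lam ω κ` and `‖lam ω κ‖ = 1` when `κ κ* = 1`.
The hypothesis `det k = det κ` is not used.
-/

set_option autoImplicit false

open scoped ComplexConjugate

noncomputable section

namespace Fermat.Agent.LT.A2.CX798.H955

open Fermat.Agent.LT.A2 Fermat.Agent.LT.A2.WX467 Fermat.Agent.LT.A2.CX798

/-- The four scalar equations of `k k* = 1`. -/
theorem unitary_entries955 {k : Matrix (Fin 2) (Fin 2) ℂ} (hk : k * k.conjTranspose = 1) :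
    (k 0 0 * conj (k 0 0) + k 0 1 * conj (k 0 1) = 1) ∧
    (k 0 0 * conj (k 1 0) + k 0 1 * conj (k 1 1) = 0) ∧
    (k 1 0 * conj (k 0 0) + k 1 1 * conj (k 0 1) = 0) ∧
    (k 1 0 * conj (k 1 0) + k 1 1 * conj (k 1 1) = 1) := by
  have h00 := congrFun (congrFun hk 0) 0
  have h01 := congrFun (congrFun hk 0) 1
  have h10 := congrFun (congrFun hk 1) 0
  have h11 := congrFun (congrFun hk 1) 1
  simp only [Matrix.mul_apply, Fin.sum_univ_two, Matrix.conjTranspose_apply, Complex.star_def,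
    Matrix.one_apply_eq] at h00 h11
  simp only [Matrix.mul_apply, Fin.sum_univ_two, Matrix.conjTranspose_apply, Complex.star_def]
    at h01 h10
  rw [Matrix.one_apply_ne (by decide)] at h01 h10
  exact ⟨h00, h01, h10, h11⟩

/-- The hermitian product of two rows is invariant under a unitary matrix. -/
theorem herm_unitary955 {k : Matrix (Fin 2) (Fin 2) ℂ} (hk : k * k.conjTranspose = 1)
    (x0 x1 y0 y1 : ℂ) :
    (x0 * k 0 0 + x1 * k 1 0) * conj (y0 * k 0 0 + y1 * k 1 0)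
        + (x0 * k 0 1 + x1 * k 1 1) * conj (y0 * k 0 1 + y1 * k 1 1)
      = x0 * conj y0 + x1 * conj y1 := by
  obtain ⟨e00, e01, e10, e11⟩ := unitary_entries955 hk
  simp only [map_add, map_mul]
  linear_combination (x0 * conj y0) * e00 + (x0 * conj y1) * e01 + (x1 * conj y0) * e10
    + (x1 * conj y1) * e11

theorem normSq_cast955 (z : ℂ) : ((‖z‖ ^ 2 : ℝ) : ℂ) = z * conj z := by
  rw [Complex.mul_conj, Complex.normSq_eq_norm_sq]

theorem rowN_cast955 (g : Matrix (Fin 2) (Fin 2) ℂ) :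
    ((rowN g : ℝ) : ℂ) = g 1 0 * conj (g 1 0) + g 1 1 * conj (g 1 1) := by
  unfold rowN
  rw [Complex.ofReal_add, normSq_cast955, normSq_cast955]

/-- `rowN (g k) = rowN g` for `k` unitary. -/
theorem rowN_mul_unitary955 {k : Matrix (Fin 2) (Fin 2) ℂ} (hk : k * k.conjTranspose = 1)
    (g : Matrix (Fin 2) (Fin 2) ℂ) : rowN (g * k) = rowN g := by
  apply Complex.ofReal_injective
  rw [rowN_cast955, rowN_cast955]
  simp only [Matrix.mul_apply, Fin.sum_univ_two]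
  exact herm_unitary955 hk (g 1 0) (g 1 1) (g 1 0) (g 1 1)

/-- `rowB (g k) = rowB g` for `k` unitary. -/
theorem rowB_mul_unitary955 {k : Matrix (Fin 2) (Fin 2) ℂ} (hk : k * k.conjTranspose = 1)
    (g : Matrix (Fin 2) (Fin 2) ℂ) : rowB (g * k) = rowB g := by
  unfold rowB
  simp only [Matrix.mul_apply, Fin.sum_univ_two]
  exact herm_unitary955 hk (g 0 0) (g 0 1) (g 1 0) (g 1 1)

/-- `lam ω` is multiplicative on the torus, `ω` a root of `X² - tX + n`. -/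
theorem lam_mul955 (ω₁ ω₂ ω : ℂ) (hω : ω = ω₁ ∨ ω = ω₂) {m κ : Matrix (Fin 2) (Fin 2) ℂ}
    (hm : InTorL (ω₁ + ω₂) (ω₁ * ω₂) m) (hκ : InTorL (ω₁ + ω₂) (ω₁ * ω₂) κ) :
    lam ω (m * κ) = lam ω m * lam ω κ := by
  obtain ⟨a, b, rfl⟩ := hm
  obtain ⟨a', b', rfl⟩ := hκ
  unfold lam torMat
  simp only [Matrix.mul_apply, Fin.sum_univ_two, Matrix.of_apply, Matrix.cons_val', Matrix.cons_val_zero,
    Matrix.cons_val_one, Matrix.empty_val', Matrix.cons_val_fin_one]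
  rcases hω with rfl | rfl <;> ring

/-- `‖lam ω κ‖ = 1` for a unitary element of the torus, `ω` a root of `X² - tX + n`. -/
theorem norm_lam_unitary955 (ω₁ ω₂ ω : ℂ) (hω : ω = ω₁ ∨ ω = ω₂)
    {κ : Matrix (Fin 2) (Fin 2) ℂ} (hκu : κ * κ.conjTranspose = 1)
    (hκ : InTorL (ω₁ + ω₂) (ω₁ * ω₂) κ) : ‖lam ω κ‖ = 1 := by
  have h := herm_unitary955 hκu 1 ω 1 ω
  obtain ⟨a, b, rfl⟩ := hκ
  have e0 : (1 : ℂ) * torMat (ω₁ + ω₂) (ω₁ * ω₂) a b 0 0
      + ω * torMat (ω₁ + ω₂) (ω₁ * ω₂) a b 1 0 = a + b * ω := by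
    unfold torMat
    simp only [Matrix.of_apply, Matrix.cons_val', Matrix.cons_val_zero, Matrix.cons_val_one,
      Matrix.empty_val', Matrix.cons_val_fin_one]
    ring
  have e1 : (1 : ℂ) * torMat (ω₁ + ω₂) (ω₁ * ω₂) a b 0 1
      + ω * torMat (ω₁ + ω₂) (ω₁ * ω₂) a b 1 1 = ω * (a + b * ω) := by
    unfold torMat
    simp only [Matrix.of_apply, Matrix.cons_val', Matrix.cons_val_zero, Matrix.cons_val_one,
      Matrix.empty_val', Matrix.cons_val_fin_one]
    rcases hω with rfl | rfl <;> ring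
  rw [e0, e1] at h
  have hl : lam ω (torMat (ω₁ + ω₂) (ω₁ * ω₂) a b) = a + b * ω := by
    unfold lam torMat
    simp only [Matrix.of_apply, Matrix.cons_val', Matrix.cons_val_zero, Matrix.cons_val_one,
      Matrix.empty_val', Matrix.cons_val_fin_one]
  rw [hl]
  set l : ℂ := a + b * ω with hldef
  -- `(l conj l - 1) (1 + ω conj ω) = 0`
  have h2 : (l * conj l - 1) * (1 + ω * conj ω) = 0 := by
    simp only [map_mul, map_one] at h
    linear_combination h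
  have h3 : (1 : ℂ) + ω * conj ω ≠ 0 := by
    rw [Complex.mul_conj]
    have : (0 : ℝ) < 1 + Complex.normSq ω := by
      have := Complex.normSq_nonneg ω
      linarith
    have h4 : ((1 + Complex.normSq ω : ℝ) : ℂ) ≠ 0 := by exact_mod_cast this.ne'
    simpa using h4
  have h5 : l * conj l = 1 := by
    rcases mul_eq_zero.mp h2 with h6 | h6
    · exact sub_eq_zero.mp h6
    · exact absurd h6 h3
  rw [Complex.mul_conj] at h5
  have h6 : Complex.normSq l = 1 := by exact_mod_cast h5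
  rw [Complex.normSq_eq_norm_sq] at h6
  have h7 : (0 : ℝ) ≤ ‖l‖ := norm_nonneg l
  nlinarith [h6, h7]

/-- **CX.07 RIGHT-INV.** -/
theorem rightInvC955 : RightInvC := by
  intro c ω₁ ω₂ k κ hk hκu hκ _ g m ξ hadm
  obtain ⟨hm, -, -⟩ := hadm
  have hN := rowN_mul_unitary955 hk g
  have hB := rowB_mul_unitary955 hk g
  have hl1 := lam_mul955 ω₁ ω₂ ω₁ (Or.inl rfl) hm hκ
  have hl2 := lam_mul955 ω₁ ω₂ ω₂ (Or.inr rfl) hm hκ
  have hn1 := norm_lam_unitary955 ω₁ ω₂ ω₁ (Or.inl rfl) hκu hκ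
  have hn2 := norm_lam_unitary955 ω₁ ω₂ ω₂ (Or.inr rfl) hκu hκ
  have a1 : ‖lam ω₁ (m * κ) * lam ω₂ (m * κ)‖ = ‖lam ω₁ m * lam ω₂ m‖ := by
    rw [hl1, hl2, norm_mul, norm_mul, norm_mul, norm_mul, hn1, hn2, mul_one, mul_one]
  have a2 : ‖lam ω₂ (m * κ) * (ξ.1 + ω₁ * ξ.2)‖ = ‖lam ω₂ m * (ξ.1 + ω₁ * ξ.2)‖ := by
    rw [hl2, norm_mul, norm_mul, norm_mul, hn2, mul_one]
  have a3 : ‖lam ω₁ (m * κ) * (ξ.1 + ω₂ * ξ.2)‖ = ‖lam ω₁ m * (ξ.1 + ω₂ * ξ.2)‖ := by
    rw [hl1, norm_mul, norm_mul, norm_mul, hn1, mul_one]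
  unfold FC
  rw [hN, hB, a1, a2, a3]

end Fermat.Agent.LT.A2.CX798.H955

end
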